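import Fermat.Agent.S20.Div.Small
import Fermat.Agent.S20.JInj

/-!
# S20 / chapter D, auxiliary file: the zero sets of `E₆`, `E₄` and of
`E₄³ E₆(z₀)² - E₄(z₀)³ E₆²` are single `SL(2,ℤ)`-orbits
-/

set_option autoImplicit false

open UpperHalfPlane ModularForm CongruenceSubgroup
open scoped MatrixGroups ModularForm Manifold Topology
open Fermat.Agent.S23

namespace Fermat.Agent.S20

namespace DivAux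

/-- At a zero of `E₆` the `j`-invariant equals `1728`. -/
private theorem orbits_Jfun_of_E₆ (z : ℍ) (h : E₆ z = 0) :
    Fermat.Agent.S24.Jfun z = 1728 := by
  have hΔ : 1728 * Δf z = E₄ z ^ 3 - E₆ z ^ 2 := Δ_eq z
  have hne : Δf z ≠ 0 := Δ_ne_zero z
  rw [h] at hΔ
  have hne' : ModularForm.discriminant z ≠ 0 := hne
  have hΔ' : 1728 * ModularForm.discriminant z = E₄ z ^ 3 - 0 ^ 2 := hΔ
  unfold Fermat.Agent.S24.Jfun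
  rw [div_eq_iff hne']
  rw [hΔ']
  ring

/-- At a zero of `E₄` the `j`-invariant equals `0`. -/
private theorem orbits_Jfun_of_E₄ (z : ℍ) (h : E₄ z = 0) :
    Fermat.Agent.S24.Jfun z = 0 := by
  unfold Fermat.Agent.S24.Jfun
  rw [h]
  simp

theorem E₆_zero_orbit (z₀ z₁ : ℍ) (h₀ : E₆ z₀ = 0) (h₁ : E₆ z₁ = 0) :
    ∃ γ : SL(2, ℤ), γ • z₀ = z₁ :=
  j_inj z₁ z₀ (by rw [orbits_Jfun_of_E₆ z₁ h₁, orbits_Jfun_of_E₆ z₀ h₀])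

theorem E₄_zero_orbit (z₀ z₁ : ℍ) (h₀ : E₄ z₀ = 0) (h₁ : E₄ z₁ = 0) :
    ∃ γ : SL(2, ℤ), γ • z₀ = z₁ :=
  j_inj z₁ z₀ (by rw [orbits_Jfun_of_E₄ z₁ h₁, orbits_Jfun_of_E₄ z₀ h₀])

set_option linter.unusedVariables false in
theorem gen_zero_orbit (z₀ z₁ : ℍ) (h4 : E₄ z₀ ≠ 0) (h6 : E₆ z₀ ≠ 0)
    (h₁ : E₄ z₁ ^ 3 * E₆ z₀ ^ 2 - E₄ z₀ ^ 3 * E₆ z₁ ^ 2 = 0) :
    ∃ γ : SL(2, ℤ), γ • z₀ = z₁ := by
  have e0 : 1728 * ModularForm.discriminant z₀ = E₄ z₀ ^ 3 - E₆ z₀ ^ 2 := Δ_eq z₀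
  have e1 : 1728 * ModularForm.discriminant z₁ = E₄ z₁ ^ 3 - E₆ z₁ ^ 2 := Δ_eq z₁
  have n0 : ModularForm.discriminant z₀ ≠ 0 := Δ_ne_zero z₀
  have n1 : ModularForm.discriminant z₁ ≠ 0 := Δ_ne_zero z₁
  refine j_inj z₁ z₀ ?_
  unfold Fermat.Agent.S24.Jfun
  rw [div_eq_div_iff n1 n0]
  have key : (1728 : ℂ) * (E₄ z₁ ^ 3 * ModularForm.discriminant z₀) =
      1728 * (E₄ z₀ ^ 3 * ModularForm.discriminant z₁) := by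
    linear_combination E₄ z₁ ^ 3 * e0 - E₄ z₀ ^ 3 * e1 - h₁
  exact mul_left_cancel₀ (by norm_num : (1728 : ℂ) ≠ 0) key

/-- The limit at `i∞` of the weight-12 form vanishing at `z₀` is `-1728 Δ(z₀) ≠ 0`. -/
theorem gen_tendsto (z₀ : ℍ) :
    Filter.Tendsto (fun z : ℍ => E₄ z ^ 3 * E₆ z₀ ^ 2 - E₄ z₀ ^ 3 * E₆ z ^ 2) atImInfty
      (𝓝 (E₆ z₀ ^ 2 - E₄ z₀ ^ 3)) := by
  have h4 : Filter.Tendsto (fun z : ℍ => E₄ z) atImInfty (𝓝 1) := StabAux.tendsto_E₄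
  have h6 : Filter.Tendsto (fun z : ℍ => E₆ z) atImInfty (𝓝 1) := tendsto_E₆
  have h := ((h4.pow 3).mul_const (E₆ z₀ ^ 2)).sub ((h6.pow 2).const_mul (E₄ z₀ ^ 3))
  have hlim : (1 : ℂ) ^ 3 * E₆ z₀ ^ 2 - E₄ z₀ ^ 3 * 1 ^ 2 = E₆ z₀ ^ 2 - E₄ z₀ ^ 3 := by ring
  rw [hlim] at h
  exact h

theorem gen_limit_ne_zero (z₀ : ℍ) : E₆ z₀ ^ 2 - E₄ z₀ ^ 3 ≠ 0 := by
  have e0 : 1728 * Δf z₀ = E₄ z₀ ^ 3 - E₆ z₀ ^ 2 := Δ_eq z₀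
  have n0 : Δf z₀ ≠ 0 := Δ_ne_zero z₀
  intro h
  apply n0
  have h' : (1728 : ℂ) * Δf z₀ = 0 := by
    rw [e0]
    linear_combination -h
  exact (mul_eq_zero.mp h').resolve_left (by norm_num)

theorem gen_smul (z₀ : ℍ) (γ : SL(2, ℤ)) (z : ℍ) :
    E₄ (γ • z) ^ 3 * E₆ z₀ ^ 2 - E₄ z₀ ^ 3 * E₆ (γ • z) ^ 2 =
      denom γ z ^ (12 : ℤ) * (E₄ z ^ 3 * E₆ z₀ ^ 2 - E₄ z₀ ^ 3 * E₆ z ^ 2) := by
  have h3 : (denom γ z ^ (4 : ℤ)) ^ 3 = denom γ z ^ (12 : ℤ) := by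
    rw [← zpow_natCast, ← zpow_mul]; norm_num
  have h2 : (denom γ z ^ (6 : ℤ)) ^ 2 = denom γ z ^ (12 : ℤ) := by
    rw [← zpow_natCast, ← zpow_mul]; norm_num
  rw [E₄_smul, E₆_smul, mul_pow, mul_pow, h3, h2]
  ring

theorem mdiff_gen (z₀ : ℍ) :
    MDiff (fun z : ℍ => E₄ z ^ 3 * E₆ z₀ ^ 2 - E₄ z₀ ^ 3 * E₆ z ^ 2) := by
  have h4 : MDiff (fun z : ℍ => E₄ z) := mdiff_E₄
  have h6 : MDiff (fun z : ℍ => E₆ z) := mdiff_E₆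
  have c6 : MDiff (fun _ : ℍ => E₆ z₀ ^ 2) := mdifferentiable_const
  have c4 : MDiff (fun _ : ℍ => E₄ z₀ ^ 3) := mdifferentiable_const
  exact ((h4.pow 3).mul c6).sub (c4.mul (h6.pow 2))

end DivAux

end Fermat.Agent.S20
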