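import Fermat.Agent.S20.Defs

/-!
# S20 / chapter D, auxiliary file: holomorphic quotients on the upper half plane

Analytic core of the division lemmas: if `f` is locally divisible by `P` (as holomorphic
functions) then `f = P * g₀` with `g₀` holomorphic on `ℍ`.
-/

set_option autoImplicit false

open UpperHalfPlane ModularForm CongruenceSubgroup
open scoped MatrixGroups ModularForm Manifold Topology
open Fermat.Agent.S23

namespace Fermat.Agent.S20

namespace DivAux

/-- A holomorphic function on `ℍ`, precomposed with `ofComplex`, is analytic at the points of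
`ℍ`. -/
theorem analyticAt_comp_ofComplex (F : ℍ → ℂ) (hF : MDiff F) (z : ℍ) :
    AnalyticAt ℂ (fun x : ℂ => F (ofComplex x)) (z : ℂ) := by
  have han : AnalyticOnNhd ℂ (F ∘ ofComplex) {z | 0 < z.im} :=
    (UpperHalfPlane.mdifferentiable_iff.mp hF).analyticOnNhd isOpen_upperHalfPlaneSet
  exact han z z.im_pos

/-- The zeros of a holomorphic function on `ℍ` which is not identically zero are isolated. -/
theorem eventually_ne_zero (P : ℍ → ℂ) (hP : MDiff P) (hP0 : ∃ z, P z ≠ 0) (z₁ : ℍ) :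
    ∀ᶠ x in 𝓝[≠] (z₁ : ℂ), P (ofComplex x) ≠ 0 := by
  have han : AnalyticOnNhd ℂ (P ∘ ofComplex) {z | 0 < z.im} :=
    (UpperHalfPlane.mdifferentiable_iff.mp hP).analyticOnNhd isOpen_upperHalfPlaneSet
  rcases (han z₁ z₁.im_pos).eventually_eq_zero_or_eventually_ne_zero with h | h
  · exfalso
    have hpc : IsPreconnected {z : ℂ | 0 < z.im} :=
      (Complex.isConnected_of_upperHalfPlane subset_rfl (by grind)).isPreconnected
    have hzero' := han.eqOn_zero_of_preconnected_of_eventuallyEq_zero hpc z₁.im_pos h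
    obtain ⟨z2, hz2⟩ := hP0
    apply hz2
    have := hzero' z2.im_pos
    simpa [ofComplex_apply] using this
  · exact h

/-- Local divisibility implies global divisibility (with a holomorphic quotient). -/
theorem exists_quot_of_local (P f : ℍ → ℂ) (hP : MDiff P) (hf : MDiff f) (hP0 : ∃ z, P z ≠ 0)
    (hloc : ∀ z₁ : ℍ, P z₁ = 0 → ∃ h : ℂ → ℂ, AnalyticAt ℂ h (z₁ : ℂ) ∧
      ∀ᶠ x in 𝓝 (z₁ : ℂ), f (ofComplex x) = P (ofComplex x) * h x) :
    ∃ g₀ : ℍ → ℂ, MDiff g₀ ∧ ∀ z, f z = P z * g₀ z := by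
  classical
  set g₀ : ℍ → ℂ := fun z =>
    if h0 : P z = 0 then (Classical.choose (hloc z h0)) (z : ℂ) else f z / P z with hg₀
  refine ⟨g₀, ?_, ?_⟩
  · intro τ
    rw [UpperHalfPlane.mdifferentiableAt_iff]
    have hH : {w : ℂ | 0 < w.im} ∈ 𝓝 (τ : ℂ) := isOpen_upperHalfPlaneSet.mem_nhds τ.im_pos
    have haP := analyticAt_comp_ofComplex P hP τ
    have haf := analyticAt_comp_ofComplex f hf τ
    by_cases h0 : P τ = 0
    · obtain ⟨hh1, hh2⟩ := Classical.choose_spec (hloc τ h0)
      set h := Classical.choose (hloc τ h0) with hh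
      have hiso := eventually_nhdsWithin_iff.mp (eventually_ne_zero P hP hP0 τ)
      refine hh1.differentiableAt.congr_of_eventuallyEq ?_
      filter_upwards [hH, hiso, hh2] with x hx1 hx2 hx3
      simp only [Function.comp_apply]
      by_cases hxτ : x = τ
      · subst hxτ
        simp only [hg₀, ofComplex_apply, dif_pos h0]
        rfl
      · have hne : P (ofComplex x) ≠ 0 := hx2 hxτ
        simp only [hg₀, dif_neg hne]
        rw [hx3]
        field_simp
    · have hne0 : (fun x : ℂ => P (ofComplex x)) (τ : ℂ) ≠ 0 := by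
        simpa [ofComplex_apply] using h0
      have hne : ∀ᶠ w in 𝓝 (τ : ℂ), P (ofComplex w) ≠ 0 := haP.continuousAt.eventually_ne hne0
      have hd : DifferentiableAt ℂ (fun x : ℂ => f (ofComplex x) / P (ofComplex x)) (τ : ℂ) :=
        haf.differentiableAt.div haP.differentiableAt hne0
      refine hd.congr_of_eventuallyEq ?_
      filter_upwards [hne] with x hx
      simp only [Function.comp_apply, hg₀, dif_neg hx]
  · intro z
    by_cases h0 : P z = 0
    · obtain ⟨hh1, hh2⟩ := Classical.choose_spec (hloc z h0)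
      have := hh2.self_of_nhds
      simp only [ofComplex_apply] at this
      simp only [hg₀, dif_pos h0]
      exact this
    · simp only [hg₀, dif_neg h0]
      field_simp

/-- Division by a function all of whose zeros are simple. -/
theorem exists_quot_of_simple (P f : ℍ → ℂ) (hP : MDiff P) (hf : MDiff f)
    (hsimple : ∀ z₁ : ℍ, P z₁ = 0 →
      analyticOrderAt (fun x : ℂ => P (ofComplex x)) (z₁ : ℂ) = 1)
    (hzero : ∀ z₁ : ℍ, P z₁ = 0 → f z₁ = 0) :
    ∃ g₀ : ℍ → ℂ, MDiff g₀ ∧ ∀ z, f z = P z * g₀ z := by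
  have hP0 : ∃ z, P z ≠ 0 := by
    by_contra hcon
    simp only [not_exists, not_not] at hcon
    have h1 := hsimple UpperHalfPlane.I (hcon _)
    have h2 : analyticOrderAt (fun x : ℂ => P (ofComplex x)) ((UpperHalfPlane.I : ℍ) : ℂ) = ⊤ := by
      rw [analyticOrderAt_eq_top]
      exact Filter.Eventually.of_forall fun x => hcon _
    rw [h2] at h1
    exact absurd h1 (by simp)
  refine exists_quot_of_local P f hP hf hP0 ?_
  intro z₁ hz₁
  have haP := analyticAt_comp_ofComplex P hP z₁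
  have haf := analyticAt_comp_ofComplex f hf z₁
  have h1 : analyticOrderAt (fun x : ℂ => P (ofComplex x)) (z₁ : ℂ) = ((1 : ℕ) : ℕ∞) := by
    rw [hsimple z₁ hz₁]; rfl
  obtain ⟨P₁, hP₁a, hP₁0, hP₁⟩ := haP.analyticOrderAt_eq_natCast.mp h1
  have hf0 : (fun x : ℂ => f (ofComplex x)) (z₁ : ℂ) = 0 := by
    simpa [ofComplex_apply] using hzero z₁ hz₁
  have h2 : ((1 : ℕ) : ℕ∞) ≤ analyticOrderAt (fun x : ℂ => f (ofComplex x)) (z₁ : ℂ) := by
    have := haf.analyticOrderAt_ne_zero.mpr hf0
    rw [Nat.cast_one]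
    exact Order.one_le_iff_ne_zero.mpr this
  obtain ⟨f₁, hf₁a, hf₁⟩ := (natCast_le_analyticOrderAt haf).mp h2
  refine ⟨fun x => f₁ x / P₁ x, hf₁a.div hP₁a hP₁0, ?_⟩
  filter_upwards [hP₁, hf₁, hP₁a.continuousAt.eventually_ne hP₁0] with x hx1 hx2 hx3
  rw [hx1, hx2]
  simp only [pow_one, smul_eq_mul]
  field_simp

/-- Division by a nowhere vanishing function. -/
theorem exists_quot_of_ne_zero (P f : ℍ → ℂ) (hP : MDiff P) (hf : MDiff f)
    (hne : ∀ z : ℍ, P z ≠ 0) :
    ∃ g₀ : ℍ → ℂ, MDiff g₀ ∧ ∀ z, f z = P z * g₀ z :=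
  exists_quot_of_local P f hP hf ⟨UpperHalfPlane.I, hne _⟩ (fun z₁ h0 => absurd h0 (hne z₁))

end DivAux

end Fermat.Agent.S20
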