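import Fermat.Agent.S20.Div.Small
import Fermat.Agent.S20.Div.Quot

/-!
# S20 / chapter D, auxiliary file: the zeros of `E₆`, `E₄` and of
`E₄³ E₆(z₀)² - E₄(z₀)³ E₆²` are simple
-/

set_option autoImplicit false

open UpperHalfPlane ModularForm CongruenceSubgroup
open scoped MatrixGroups ModularForm Manifold Topology
open Fermat.Agent.S23

namespace Fermat.Agent.S20

namespace DivAux

/-- `x ↦ E₄ (ofComplex x)` is analytic at the points of `ℍ`. -/
private theorem orders_analyticAt_E₄ (z₁ : ℍ) :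
    AnalyticAt ℂ (fun x : ℂ => E₄ (ofComplex x)) (z₁ : ℂ) :=
  analyticAt_comp_ofComplex (fun z : ℍ => E₄ z) mdiff_E₄ z₁

/-- `x ↦ E₆ (ofComplex x)` is analytic at the points of `ℍ`. -/
private theorem orders_analyticAt_E₆ (z₁ : ℍ) :
    AnalyticAt ℂ (fun x : ℂ => E₆ (ofComplex x)) (z₁ : ℂ) :=
  analyticAt_comp_ofComplex (fun z : ℍ => E₆ z) mdiff_E₆ z₁

/-- `x ↦ Δ (ofComplex x)` is analytic at the points of `ℍ`. -/
private theorem orders_analyticAt_Δ (z₁ : ℍ) :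
    AnalyticAt ℂ (fun x : ℂ => Δf (ofComplex x)) (z₁ : ℂ) :=
  analyticAt_comp_ofComplex Δf mdiff_Δ z₁

/-- `x ↦ (Δ (ofComplex x))⁻¹` is analytic at the points of `ℍ`. -/
private theorem orders_analyticAt_Δ_inv (z₁ : ℍ) :
    AnalyticAt ℂ (fun x : ℂ => (Δf (ofComplex x))⁻¹) (z₁ : ℂ) :=
  (orders_analyticAt_Δ z₁).inv (Δ_ne_zero _)

/-- `x ↦ (Δ (ofComplex x))⁻¹` has order `0` at the points of `ℍ`. -/
private theorem orders_order_Δ_inv (z₁ : ℍ) :
    analyticOrderAt (fun x : ℂ => (Δf (ofComplex x))⁻¹) (z₁ : ℂ) = 0 :=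
  (orders_analyticAt_Δ_inv z₁).analyticOrderAt_eq_zero.2 (inv_ne_zero (Δ_ne_zero _))

/-- `x ↦ Δ (ofComplex x)` has order `0` at the points of `ℍ`. -/
private theorem orders_order_Δ (z₁ : ℍ) :
    analyticOrderAt (fun x : ℂ => Δf (ofComplex x)) (z₁ : ℂ) = 0 :=
  (orders_analyticAt_Δ z₁).analyticOrderAt_eq_zero.2 (Δ_ne_zero _)

/-- If `n • m = n` in `ℕ∞` with `n ≠ 0` a natural number, then `m = 1`. -/
private theorem orders_eq_one_of_nsmul (n : ℕ) (hn : n ≠ 0) (m : ℕ∞) (h : n • m = (n : ℕ∞)) :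
    m = 1 := by
  induction m using ENat.recTopCoe with
  | top =>
    exfalso
    rw [nsmul_eq_mul, ENat.mul_top (by exact_mod_cast hn)] at h
    exact ENat.top_ne_natCast n h
  | coe m =>
    rw [nsmul_eq_mul] at h
    have h' : n * m = n := by exact_mod_cast h
    have hm : m = 1 := by
      have : n * m = n * 1 := by rw [h', mul_one]
      exact Nat.eq_of_mul_eq_mul_left (Nat.pos_of_ne_zero hn) this
    rw [hm]
    rfl

theorem E₆_simple (z₁ : ℍ) (h₁ : E₆ z₁ = 0) :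
    analyticOrderAt (fun x : ℂ => E₆ (ofComplex x)) (z₁ : ℂ) = 1 := by
  have hd := orders_analyticAt_E₆ z₁
  have hDi := orders_analyticAt_Δ_inv z₁
  have hDi0 := orders_order_Δ_inv z₁
  have hJ : Fermat.Agent.S24.Jfun z₁ = 1728 := by
    have h := Δ_eq z₁
    have hne := Δ_ne_zero z₁
    unfold Fermat.Agent.S24.Jfun
    rw [h₁] at h
    rw [div_eq_iff hne]
    linear_combination -h
  have hord := Fermat.Agent.S24.Jfun_order z₁
  rw [hJ, if_neg (by norm_num), if_pos rfl] at hord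
  have hfun : (fun w : ℂ => Fermat.Agent.S24.Jfun (ofComplex w) - 1728) =
      (fun x : ℂ => E₆ (ofComplex x)) ^ 2 * (fun x : ℂ => (Δf (ofComplex x))⁻¹) := by
    funext x
    simp only [Pi.mul_apply, Pi.pow_apply]
    have h := Δ_eq (ofComplex x)
    have hne := Δ_ne_zero (ofComplex x)
    unfold Fermat.Agent.S24.Jfun
    rw [div_sub' hne, div_eq_mul_inv]
    congr 1
    linear_combination -h
  rw [hfun, analyticOrderAt_mul (hd.pow 2) hDi, analyticOrderAt_pow hd, hDi0, add_zero] at hord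
  exact orders_eq_one_of_nsmul 2 (by norm_num) _ hord

theorem E₄_simple (z₁ : ℍ) (h₁ : E₄ z₁ = 0) :
    analyticOrderAt (fun x : ℂ => E₄ (ofComplex x)) (z₁ : ℂ) = 1 := by
  have ha := orders_analyticAt_E₄ z₁
  have hDi := orders_analyticAt_Δ_inv z₁
  have hDi0 := orders_order_Δ_inv z₁
  have hJ : Fermat.Agent.S24.Jfun z₁ = 0 := by
    unfold Fermat.Agent.S24.Jfun
    rw [h₁]
    simp
  have hord := Fermat.Agent.S24.Jfun_order z₁
  rw [hJ, if_pos rfl] at hord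
  have hfun : (fun w : ℂ => Fermat.Agent.S24.Jfun (ofComplex w) - 0) =
      (fun x : ℂ => E₄ (ofComplex x)) ^ 3 * (fun x : ℂ => (Δf (ofComplex x))⁻¹) := by
    funext x
    simp only [Pi.mul_apply, Pi.pow_apply]
    unfold Fermat.Agent.S24.Jfun
    rw [sub_zero, div_eq_mul_inv]
  rw [hfun, analyticOrderAt_mul (ha.pow 3) hDi, analyticOrderAt_pow ha, hDi0, add_zero] at hord
  exact orders_eq_one_of_nsmul 3 (by norm_num) _ hord

theorem gen_simple (z₀ z₁ : ℍ) (h4 : E₄ z₀ ≠ 0) (h6 : E₆ z₀ ≠ 0)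
    (h₁ : E₄ z₁ ^ 3 * E₆ z₀ ^ 2 - E₄ z₀ ^ 3 * E₆ z₁ ^ 2 = 0) :
    analyticOrderAt (fun x : ℂ => E₄ (ofComplex x) ^ 3 * E₆ z₀ ^ 2 -
      E₄ z₀ ^ 3 * E₆ (ofComplex x) ^ 2) (z₁ : ℂ) = 1 := by
  have ha := orders_analyticAt_E₄ z₁
  have hD := orders_analyticAt_Δ z₁
  have hDi := orders_analyticAt_Δ_inv z₁
  have hD0 := orders_order_Δ z₁
  have e0 := Δ_eq z₀
  have e1 := Δ_eq z₁
  have hne0 := Δ_ne_zero z₀
  have hne1 := Δ_ne_zero z₁
  -- `J z₁ = J z₀`
  have hJeq : Fermat.Agent.S24.Jfun z₁ = Fermat.Agent.S24.Jfun z₀ := by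
    unfold Fermat.Agent.S24.Jfun
    rw [div_eq_div_iff hne1 hne0]
    have h : (1728 : ℂ) * (E₄ z₁ ^ 3 * Δf z₀ - E₄ z₀ ^ 3 * Δf z₁) = 0 := by
      linear_combination (E₄ z₁ ^ 3) * e0 - (E₄ z₀ ^ 3) * e1 - h₁
    have h' := (mul_eq_zero.1 h).resolve_left (by norm_num)
    exact sub_eq_zero.1 h'
  have hJ0 : Fermat.Agent.S24.Jfun z₁ ≠ 0 := by
    rw [hJeq]
    unfold Fermat.Agent.S24.Jfun
    exact div_ne_zero (pow_ne_zero 3 h4) hne0
  have hJ1 : Fermat.Agent.S24.Jfun z₁ ≠ 1728 := by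
    rw [hJeq]
    unfold Fermat.Agent.S24.Jfun
    intro h
    rw [div_eq_iff hne0] at h
    apply pow_ne_zero 2 h6
    linear_combination h + e0
  have hord := Fermat.Agent.S24.Jfun_order z₁
  rw [if_neg hJ0, if_neg hJ1] at hord
  -- analyticity of `J - J z₁`
  have hJan : AnalyticAt ℂ
      (fun w : ℂ => Fermat.Agent.S24.Jfun (ofComplex w) - Fermat.Agent.S24.Jfun z₁) (z₁ : ℂ) := by
    by_contra hcon
    have h0 := analyticOrderAt_eq_zero.2 (Or.inl hcon)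
    rw [hord] at h0
    exact one_ne_zero h0
  have hc : AnalyticAt ℂ (fun _ : ℂ => -1728 * Δf z₀) (z₁ : ℂ) := analyticAt_const
  have hc0 : analyticOrderAt (fun _ : ℂ => -1728 * Δf z₀) (z₁ : ℂ) = 0 :=
    hc.analyticOrderAt_eq_zero.2 (mul_ne_zero (by norm_num) hne0)
  have hfun : (fun x : ℂ => E₄ (ofComplex x) ^ 3 * E₆ z₀ ^ 2 -
      E₄ z₀ ^ 3 * E₆ (ofComplex x) ^ 2) =
      (fun _ : ℂ => -1728 * Δf z₀) * (fun x : ℂ => Δf (ofComplex x)) *
        (fun w : ℂ => Fermat.Agent.S24.Jfun (ofComplex w) - Fermat.Agent.S24.Jfun z₁) := by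
    funext x
    simp only [Pi.mul_apply]
    have ex := Δ_eq (ofComplex x)
    have hnex := Δ_ne_zero (ofComplex x)
    rw [hJeq]
    unfold Fermat.Agent.S24.Jfun
    have key : -1728 * Δf z₀ * Δf (ofComplex x) *
        (E₄ (ofComplex x) ^ 3 / ModularForm.discriminant (ofComplex x) -
          E₄ z₀ ^ 3 / ModularForm.discriminant z₀) =
        -1728 * (Δf z₀ * E₄ (ofComplex x) ^ 3 - Δf (ofComplex x) * E₄ z₀ ^ 3) := by
      field_simp
    rw [key]
    linear_combination (E₄ (ofComplex x) ^ 3) * e0 - (E₄ z₀ ^ 3) * ex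
  rw [hfun, analyticOrderAt_mul (hc.mul hD) hJan, analyticOrderAt_mul hc hD, hc0, hD0, hord]
  rfl

end DivAux

end Fermat.Agent.S20
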