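import Fermat.Agent.S20.Basics
import Fermat.Agent.S23.Division

/-!
# S20 / chapter D, auxiliary file: packaging a holomorphic quotient as a modular form
-/

set_option autoImplicit false

open UpperHalfPlane ModularForm CongruenceSubgroup
open scoped MatrixGroups ModularForm Manifold Topology
open Fermat.Agent.S23

namespace Fermat.Agent.S20

namespace DivAux

variable {N : ℕ} [NeZero N]

/-- A function tending to a nonzero limit at `i∞` is eventually nonzero. -/
theorem eventually_ne_of_tendsto (P : ℍ → ℂ) (c : ℂ) (hc : c ≠ 0)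
    (hP : Filter.Tendsto P atImInfty (𝓝 c)) : ∀ᶠ z in atImInfty, P z ≠ 0 :=
  hP.eventually_ne hc

/-- Dividing a bounded function by a function tending to a nonzero limit gives a bounded
function. -/
theorem bdd_div_of_tendsto (P : ℍ → ℂ) (c : ℂ) (hc : c ≠ 0)
    (hP : Filter.Tendsto P atImInfty (𝓝 c)) (F : ℍ → ℂ) (hF : IsBoundedAtImInfty F) :
    IsBoundedAtImInfty (fun z : ℍ => F z / P z) := by
  have hinv : Filter.Tendsto (fun z : ℍ => (P z)⁻¹) atImInfty (𝓝 c⁻¹) := hP.inv₀ hc
  have hPb : Filter.BoundedAtFilter atImInfty (fun z : ℍ => (P z)⁻¹) := hinv.isBigO_one ℝ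
  have hF' : Filter.BoundedAtFilter atImInfty F := hF
  have hmul : Filter.BoundedAtFilter atImInfty (F * fun z : ℍ => (P z)⁻¹) := hF'.mul hPb
  have heq : (fun z : ℍ => F z / P z) = F * fun z : ℍ => (P z)⁻¹ := by
    funext z
    rw [Pi.mul_apply, div_eq_mul_inv]
  rw [heq]
  exact hmul

/-- If all conjugates of `f` vanish at `z₀`, then `f` vanishes on the `SL(2,ℤ)`-orbit of `z₀`. -/
theorem vanish_orbit {K : ℤ} (f : ModularForm (Gam N) K) (z₀ : ℍ) (hf : ∀ j, cj f j z₀ = 0)
    (γ : SL(2, ℤ)) : f (γ • z₀) = 0 := by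
  have h1 := cj_smul_apply f γ (i0 N) z₀
  rw [hf, mul_zero] at h1
  have h2 := congrFun (cj_i0 f) (γ • z₀)
  rw [← h2]
  exact h1

/-- Packaging: if `f = P * g₀` with `f` a modular form of weight `K` on `Γ₀(N)`, `P` a
holomorphic function with the level-one transformation law of weight `w`, not vanishing near
`i∞`, `g₀` holomorphic, and all `cj f j / P` bounded at `i∞`, then `g₀` is a modular form of
weight `K - w` on `Γ₀(N)`. -/
theorem pack {K w K' : ℤ} (hK' : K' = K - w) (P : ℍ → ℂ) (hP : MDiff P)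
    (hPinv : ∀ (γ : SL(2, ℤ)) (z : ℍ), P (γ • z) = denom γ z ^ w * P z)
    (hP0 : ∀ᶠ z in atImInfty, P z ≠ 0)
    (f : ModularForm (Gam N) K) (g₀ : ℍ → ℂ) (hg₀ : MDiff g₀) (hfg : ∀ z, f z = P z * g₀ z)
    (hbdd : ∀ j, IsBoundedAtImInfty (fun z : ℍ => cj f j z / P z)) :
    ∃ g : ModularForm (Gam N) K', ∀ z : ℍ, f z = P z * g z := by
  subst hK'
  have hPne : ∃ z, P z ≠ 0 := hP0.exists
  -- the `Γ₀(N)`-transformation law of `g₀`
  have hinv : ∀ γ ∈ CongruenceSubgroup.Gamma0 N, ∀ z : ℍ,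
      g₀ (γ • z) = denom γ z ^ (K - w) * g₀ z := by
    intro γ hγ z
    have htrans : ∀ z : ℍ, (fun z : ℍ => f z) (γ • z) * P z =
        denom γ z ^ (K - w) * (fun z : ℍ => f z) z * P (γ • z) := by
      intro z
      have hd : denom γ z ≠ 0 := denom_ne_zero _ z
      have h1 : f (γ • z) = denom γ z ^ K * f z :=
        SlashInvariantForm.slash_action_eqn'' (Γ := Gam N) f
          (γ := Matrix.SpecialLinearGroup.mapGL ℝ γ) (Subgroup.mem_map_of_mem _ hγ) z
      have h2 : denom γ z ^ K = denom γ z ^ (K - w) * denom γ z ^ w := by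
        rw [← zpow_add₀ hd, sub_add_cancel]
      show f (γ • z) * P z = denom γ z ^ (K - w) * f z * P (γ • z)
      rw [h1, hPinv γ z, h2]
      ring
    have hsl : g₀ ∣[K - w] γ = g₀ :=
      DivisionAux.slash_quot (K - w) P (fun z : ℍ => f z) g₀ hP hg₀ hPne
        (fun z => by rw [hfg z]; ring) γ htrans
    have h3 := congrFun hsl z
    rw [ModularForm.SL_slash_apply, zpow_neg] at h3
    have hd : denom γ z ^ (K - w) ≠ 0 := zpow_ne_zero _ (denom_ne_zero _ z)
    rw [← h3, mul_comm, mul_assoc, inv_mul_cancel₀ hd, mul_one]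
  -- boundedness of all translates
  have hbd : ∀ γ : SL(2, ℤ), IsBoundedAtImInfty (g₀ ∣[K - w] γ) := by
    intro γ
    have hcj : cj f (perm N γ (i0 N)) = (f : ℍ → ℂ) ∣[K] γ := cj_eq_slash f γ
    have hev : (fun z : ℍ => cj f (perm N γ (i0 N)) z / P z) =ᶠ[atImInfty] (g₀ ∣[K - w] γ) := by
      filter_upwards [hP0] with z hz
      have hd : denom γ z ≠ 0 := denom_ne_zero _ z
      have h1 : cj f (perm N γ (i0 N)) z = f (γ • z) * denom γ z ^ (-K) := by
        rw [hcj, ModularForm.SL_slash_apply]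
      have h2 : denom γ z ^ (-K) = denom γ z ^ (-(K - w)) * (denom γ z ^ w)⁻¹ := by
        rw [← zpow_neg, ← zpow_add₀ hd]
        congr 1
        ring
      have hdw : denom γ z ^ w ≠ 0 := zpow_ne_zero _ hd
      rw [h1, ModularForm.SL_slash_apply, hfg (γ • z), hPinv γ z, h2]
      field_simp
    have hb : Filter.BoundedAtFilter atImInfty
        (fun z : ℍ => cj f (perm N γ (i0 N)) z / P z) := hbdd _
    exact Asymptotics.IsBigO.congr' hb hev Filter.EventuallyEq.rfl
  obtain ⟨g, hg⟩ := exists_modularForm_of (N := N) (K - w) g₀ hg₀ hinv hbd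
  refine ⟨g, fun z => ?_⟩
  rw [hfg z, ← hg]

end DivAux

end Fermat.Agent.S20
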