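import Fermat.Agent.S20.Basics
import Fermat.Agent.S24.Ana.JFacts

/-!
# S20 / chapter D, auxiliary file: small facts about `E₄`, `E₆`, `Δ`
-/

set_option autoImplicit false

open UpperHalfPlane ModularForm CongruenceSubgroup
open scoped MatrixGroups ModularForm Manifold Topology
open Fermat.Agent.S23

namespace Fermat.Agent.S20

namespace DivAux

theorem E₄_smul (γ : SL(2, ℤ)) (z : ℍ) : E₄ (γ • z) = denom γ z ^ (4 : ℤ) * E₄ z := by
  have hmem : (Matrix.SpecialLinearGroup.mapGL ℝ γ) ∈ 𝒮ℒ := ⟨γ, rfl⟩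
  exact SlashInvariantForm.slash_action_eqn'' E₄ hmem z

theorem E₆_smul (γ : SL(2, ℤ)) (z : ℍ) : E₆ (γ • z) = denom γ z ^ (6 : ℤ) * E₆ z := by
  have hmem : (Matrix.SpecialLinearGroup.mapGL ℝ γ) ∈ 𝒮ℒ := ⟨γ, rfl⟩
  exact SlashInvariantForm.slash_action_eqn'' E₆ hmem z

theorem Δ_smul (γ : SL(2, ℤ)) (z : ℍ) : Δf (γ • z) = denom γ z ^ (12 : ℤ) * Δf z := by
  have hmem : (Matrix.SpecialLinearGroup.mapGL ℝ γ) ∈ 𝒮ℒ := ⟨γ, rfl⟩
  exact SlashInvariantForm.slash_action_eqn'' CuspForm.discriminant hmem z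

theorem Δ_ne_zero (z : ℍ) : Δf z ≠ 0 :=
  ModularForm.discriminant_ne_zero z

/-- `1728 Δ = E₄³ - E₆²`, pointwise. -/
theorem Δ_eq (z : ℍ) : 1728 * Δf z = E₄ z ^ 3 - E₆ z ^ 2 := by
  have h := ModularForm.discriminant_eq_E₄_cube_sub_E₆_sq z
  show 1728 * ModularForm.discriminant z = E₄ z ^ 3 - E₆ z ^ 2
  rw [h]
  ring

theorem mdiff_E₄ : MDiff (fun z : ℍ => E₄ z) :=
  ModularFormClass.holo E₄

theorem mdiff_E₆ : MDiff (fun z : ℍ => E₆ z) :=
  ModularFormClass.holo E₆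

theorem mdiff_Δ : MDiff Δf :=
  CuspFormClass.holo CuspForm.discriminant

/-- `E₆` tends to `1` at `i∞`. -/
theorem tendsto_E₆ : Filter.Tendsto (fun z : ℍ => E₆ z) atImInfty (𝓝 1) := by
  have hana : AnalyticAt ℂ (cuspFunction 1 (ModularForm.E₆ : ℍ → ℂ)) 0 :=
    ModularFormClass.analyticAt_cuspFunction_zero ModularForm.E₆ one_pos
      one_mem_strictPeriods_SL
  have h0 : cuspFunction 1 (ModularForm.E₆ : ℍ → ℂ) 0 = 1 := by
    have h1 := EisensteinSeries.E_qExpansion_coeff_zero (k := 6) (by norm_num) (by decide)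
    simpa [qExpansion_coeff] using h1
  have hcomp : (cuspFunction 1 (ModularForm.E₆ : ℍ → ℂ) ∘
      fun τ : ℍ => Function.Periodic.qParam 1 τ) = fun z : ℍ => ModularForm.E₆ z := by
    funext τ
    exact SlashInvariantFormClass.eq_cuspFunction ModularForm.E₆ τ one_mem_strictPeriods_SL
      one_ne_zero
  have h2 := hana.continuousAt.tendsto.comp (qParam_tendsto_atImInfty one_pos)
  rw [h0, hcomp] at h2
  exact h2

theorem denom_S_I : denom ModularGroup.S UpperHalfPlane.I = Complex.I := by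
  rw [ModularGroup.denom_S, UpperHalfPlane.coe_I]

theorem denom_Umat_ellRho :
    denom Umat Fermat.Agent.S24.rho = (1 / 2 : ℂ) + (Real.sqrt 3 / 2 : ℝ) * Complex.I := by
  have h10 : (Umat 1 0 : ℤ) = 1 := by decide
  have h11 : (Umat 1 1 : ℤ) = 1 := by decide
  have hρ : ((Fermat.Agent.S24.rho : ℍ) : ℂ) = -1 / 2 + (Real.sqrt 3 / 2 : ℝ) * Complex.I := rfl
  rw [ModularGroup.denom_apply, h10, h11, hρ]
  push_cast
  ring

/-- `S` fixes `i` (proved directly, independently of the `j`-function files). -/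
private theorem small_S_smul_I : ModularGroup.S • UpperHalfPlane.I = UpperHalfPlane.I := by
  rw [UpperHalfPlane.modular_S_smul, UpperHalfPlane.ext_iff, UpperHalfPlane.coe_mk,
    UpperHalfPlane.coe_I]
  apply inv_eq_of_mul_eq_one_right
  rw [neg_mul, Complex.I_mul_I, neg_neg]

private theorem small_sqrt_three_sq : ((Real.sqrt 3 : ℝ) : ℂ) ^ 2 = 3 := by
  have h : (Real.sqrt 3 : ℝ) ^ 2 = 3 := Real.sq_sqrt (by norm_num)
  exact_mod_cast h

private theorem small_coe_rho :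
    ((Fermat.Agent.S24.rho : ℍ) : ℂ) = -1 / 2 + ((Real.sqrt 3 : ℝ) : ℂ) / 2 * Complex.I := by
  have hρ : ((Fermat.Agent.S24.rho : ℍ) : ℂ) = -1 / 2 + (Real.sqrt 3 / 2 : ℝ) * Complex.I := rfl
  rw [hρ]
  push_cast
  ring

/-- `U = S T` fixes `ρ` (proved directly, independently of the `j`-function files). -/
private theorem small_Umat_smul_rho : Umat • Fermat.Agent.S24.rho = Fermat.Agent.S24.rho := by
  unfold Umat
  rw [mul_smul, UpperHalfPlane.modular_T_smul, UpperHalfPlane.modular_S_smul,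
    UpperHalfPlane.ext_iff, UpperHalfPlane.coe_mk, UpperHalfPlane.coe_vadd, small_coe_rho]
  apply inv_eq_of_mul_eq_one_right
  have hs := small_sqrt_three_sq
  push_cast
  linear_combination (-(Complex.I ^ 2) / 4) * hs - (3 / 4 : ℂ) * Complex.I_sq

theorem E₆_I : E₆ UpperHalfPlane.I = 0 := by
  have h := E₆_smul ModularGroup.S UpperHalfPlane.I
  rw [small_S_smul_I, denom_S_I] at h
  have hI : (Complex.I : ℂ) ^ (6 : ℤ) = -1 := by
    have h1 : (Complex.I : ℂ) ^ (6 : ℤ) = Complex.I ^ (6 : ℕ) := by norm_cast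
    have h2 : (Complex.I : ℂ) ^ 6 = (Complex.I ^ 2) ^ 3 := by ring
    rw [h1, h2, Complex.I_sq]
    norm_num
  rw [hI] at h
  have h2 : (2 : ℂ) * E₆ UpperHalfPlane.I = 0 := by linear_combination h
  exact (mul_eq_zero.mp h2).resolve_left two_ne_zero

theorem E₄_rho : E₄ Fermat.Agent.S24.rho = 0 := by
  have h := E₄_smul Umat Fermat.Agent.S24.rho
  rw [small_Umat_smul_rho, denom_Umat_ellRho] at h
  have hs := small_sqrt_three_sq
  have hz : ((1 / 2 : ℂ) + (Real.sqrt 3 / 2 : ℝ) * Complex.I) ^ (4 : ℤ) =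
      -1 / 2 - ((Real.sqrt 3 : ℝ) : ℂ) / 2 * Complex.I := by
    have h1 : ((1 / 2 : ℂ) + (Real.sqrt 3 / 2 : ℝ) * Complex.I) ^ (4 : ℤ) =
        ((1 / 2 : ℂ) + (Real.sqrt 3 / 2 : ℝ) * Complex.I) ^ (4 : ℕ) := by norm_cast
    have h2 : ((1 / 2 : ℂ) + (Real.sqrt 3 / 2 : ℝ) * Complex.I) ^ 2 =
        -1 / 2 + ((Real.sqrt 3 : ℝ) : ℂ) / 2 * Complex.I := by
      push_cast
      linear_combination (Complex.I ^ 2 / 4) * hs + (3 / 4 : ℂ) * Complex.I_sq
    have h3 : ((1 / 2 : ℂ) + (Real.sqrt 3 / 2 : ℝ) * Complex.I) ^ (4 : ℕ) =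
        (((1 / 2 : ℂ) + (Real.sqrt 3 / 2 : ℝ) * Complex.I) ^ 2) ^ 2 := by ring
    rw [h1, h3, h2]
    linear_combination (Complex.I ^ 2 / 4) * hs + (3 / 4 : ℂ) * Complex.I_sq
  rw [hz] at h
  have h3 : (3 : ℂ) * E₄ Fermat.Agent.S24.rho = 0 := by
    linear_combination ((3 / 2 : ℂ) - ((Real.sqrt 3 : ℝ) : ℂ) / 2 * Complex.I) * h
      + E₄ Fermat.Agent.S24.rho * ((Complex.I ^ 2 / 4) * hs + (3 / 4 : ℂ) * Complex.I_sq)
  exact (mul_eq_zero.mp h3).resolve_left three_ne_zero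

theorem E₄_ne_zero_or_E₆_ne_zero (z : ℍ) : E₄ z ≠ 0 ∨ E₆ z ≠ 0 := by
  by_contra hcon
  rw [not_or, not_not, not_not] at hcon
  obtain ⟨h4, h6⟩ := hcon
  have h := Δ_eq z
  rw [h4, h6] at h
  have h0 : Δf z = 0 := by
    have : (1728 : ℂ) * Δf z = 0 := by rw [h]; norm_num
    exact (mul_eq_zero.mp this).resolve_left (by norm_num)
  exact Δ_ne_zero z h0

end DivAux

end Fermat.Agent.S20
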